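import Mathlib
import Fermat.Prelude.Def_ModularCurve_ArithmeticGalois
import Fermat.Prelude.Def_ModularCurve_X0ModL
import Fermat.Agent.MUL.F3.DictC.EmbFHom
import Fermat.Agent.MUL.F3.DictC.EmbFStab
import Fermat.Agent.MUL.F3.DictC.ValInf

section MergeWrap_F3_DictC_EmbF -- from F3/DictC/EmbF.lean

set_option autoImplicit false

noncomputable section

namespace Fermat.Agent.F3Dict

open UpperHalfPlane
open scoped MatrixGroups Manifold

/-- The element `j` of the Prelude's function field. -/
def jBar (N : ℕ) [NeZero N] : ↥(FC N) :=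
  ⟨ModularCurve.coeffEmb Kc ModularCurve.jq,
    ModularCurve.coeffEmb_mem_laurentBaseChange Kc (by
      have h := ModularCurve.jqd_mem_full N (one_dvd N)
      rwa [ModularCurve.qExpand_one_apply] at h)⟩

theorem coe_jBar (N : ℕ) [NeZero N] :
    ((jBar N : ↥(FC N)) : LaurentSeries Kc)
      = ModularCurve.coeffEmb Kc ModularCurve.jq := rfl

theorem exists_embF (N : ℕ) [NeZero N] :
    ∃ φ : ↥(FC N) →ₐ[Kc] LL (2 * N),
      φ (jBar N) = jLL (2 * N) ∧
      ∀ γ : SL(2, ℤ), γ ∈ CongruenceSubgroup.Gamma0 N ↔ ∀ x, γ • φ x = φ x :=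
  exists_embF_of_hom N (jBar N) (EmbFHom.exists_embF_hom N (jBar N) rfl)

theorem coe_jBar_eq_jqModC (N : ℕ) [NeZero N] :
    ((jBar N : ↥(FC N)) : LaurentSeries Kc) =
      ModularCurve.jqModC Kc := by
  rw [coe_jBar]
  unfold ModularCurve.coeffEmb
  rw [← ModularCurve.jqModC_rat, ModularCurve.coeffMap_jqModC]

/-- `j` is transcendental over `Kc`: it has a pole at `∞` (helper24). -/
theorem transcendental_jBar (N : ℕ) [NeZero N] : Transcendental Kc (jBar N) := by
  intro halg
  have hint : IsIntegral Kc (jBar N) := halg.isIntegral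
  have hdeg : (minpoly Kc (jBar N)).degree = 1 :=
    IsAlgClosed.degree_eq_one_of_irreducible Kc (minpoly.irreducible hint)
  obtain ⟨c, hc⟩ := minpoly.mem_range_of_degree_eq_one Kc (jBar N) hdeg
  have h1 := congrArg
    (fun x : ↥(FC N) => (x : LaurentSeries Kc).coeff (-1)) hc
  simp only [coe_jBar_eq_jqModC, ModularCurve.coeff_jqModC_neg_one] at h1
  have h2 : ((algebraMap Kc ↥(FC N) c :
      ↥(FC N)) : LaurentSeries Kc) =
      algebraMap Kc (LaurentSeries Kc) c := rfl
  rw [h2, ModularCurve.algebraMap_laurentSeries_eq_single,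
    HahnSeries.coeff_single_of_ne (by norm_num)] at h1
  exact zero_ne_one h1

end Fermat.Agent.F3Dict
end
end MergeWrap_F3_DictC_EmbF
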